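import Mathlib

/-!
Kummer descent (second case of FLT) in an abstract principal ideal domain `R`
containing a primitive `p`-th root of unity.
-/

set_option autoImplicit false
set_option linter.unusedSectionVars false

namespace Fermat.Agent.FLTSmall

open Polynomial Finset

/-- The abstract cyclotomic hypotheses. -/
structure CycloSetting (R : Type*) [CommRing R] (p : ℕ) (ζ : R) : Prop where
  prime : p.Prime
  odd : p ≠ 2
  prim : IsPrimitiveRoot ζ p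
  lam_prime : Prime (ζ - 1)
  res : ∀ x : R, ∃ n : ℤ, (ζ - 1) ∣ x - (n : R)
  assoc : Associated (p : R) ((ζ - 1) ^ (p - 1))

/-- The abstract hypotheses used in the descent: cyclotomic setting plus Kummer's lemma. -/
structure KummerSetting (R : Type*) [CommRing R] (p : ℕ) (ζ : R) : Prop
    extends CycloSetting R p ζ where
  kummer : ∀ u : Rˣ, (∃ n : ℤ, (p : R) ∣ (u : R) - (n : R)) → ∃ v : Rˣ, u = v ^ p

namespace CycloSetting

variable {R : Type*} [CommRing R] {p : ℕ} {ζ : R}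

lemma lam_dvd_p (S : CycloSetting R p ζ) : (ζ - 1) ∣ (p : R) := by
  have h1 : (ζ - 1) ∣ (ζ - 1) ^ (p - 1) :=
    dvd_pow_self _ (by have := S.prime.two_le; omega)
  exact h1.trans S.assoc.symm.dvd

lemma p_dvd_lam_pow (S : CycloSetting R p ζ) {k : ℕ} (hk : p - 1 ≤ k) :
    (p : R) ∣ (ζ - 1) ^ k :=
  S.assoc.dvd.trans (pow_dvd_pow _ hk)

lemma lam_dvd_int_iff (S : CycloSetting R p ζ) (n : ℤ) :
    (ζ - 1) ∣ (n : R) ↔ (p : ℤ) ∣ n := by
  constructor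
  · intro h
    by_contra hn
    have hp : Prime (p : ℤ) := Nat.prime_iff_prime_int.mp S.prime
    have hc : IsCoprime (p : ℤ) n := (Prime.coprime_iff_not_dvd hp).mpr hn
    obtain ⟨a, b, hab⟩ := hc
    have h1 : (ζ - 1) ∣ ((a * p + b * n : ℤ) : R) := by
      push_cast
      exact dvd_add (Dvd.dvd.mul_left S.lam_dvd_p _) (Dvd.dvd.mul_left h _)
    rw [hab, Int.cast_one] at h1
    exact S.lam_prime.not_isUnit (isUnit_of_dvd_one h1)
  · rintro ⟨k, rfl⟩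
    push_cast
    exact Dvd.dvd.mul_right S.lam_dvd_p _

lemma exists_int_pow (S : CycloSetting R p ζ) (x : R) :
    ∃ n : ℤ, (p : R) ∣ x ^ p - (n : R) := by
  obtain ⟨n, y, hy⟩ := S.res x
  obtain ⟨r, hr⟩ := exists_add_pow_prime_eq S.prime (n : R) ((ζ - 1) * y)
  refine ⟨n ^ p, ?_⟩
  have hx : x = (n : R) + (ζ - 1) * y := by rw [← hy]; ring
  have h2 : (p : R) ∣ ((ζ - 1) * y) ^ p := by
    rw [mul_pow]
    exact Dvd.dvd.mul_right (S.p_dvd_lam_pow (by omega)) _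
  obtain ⟨s, hs⟩ := h2
  refine ⟨s + (n : R) * ((ζ - 1) * y) * r, ?_⟩
  rw [hx, hr, hs]
  push_cast
  ring

end CycloSetting

namespace KummerSetting

variable {R : Type*} [CommRing R] {p : ℕ} {ζ : R}

lemma lam_dvd_add (S : KummerSetting R p ζ) {x y : R} (h : (ζ - 1) ∣ x ^ p + y ^ p) :
    (ζ - 1) ∣ x + y := by
  obtain ⟨r, hr⟩ := exists_add_pow_prime_eq S.prime x y
  apply S.lam_prime.dvd_of_dvd_pow (n := p)
  rw [hr]
  refine dvd_add h ?_
  rw [mul_assoc, mul_assoc]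
  exact Dvd.dvd.mul_right S.lam_dvd_p _

lemma lam_dvd_geom_sum_sub (ζ : R) (k : ℕ) :
    (ζ - 1) ∣ (∑ i ∈ range k, ζ ^ i) - (k : R) := by
  have : (∑ i ∈ range k, ζ ^ i) - (k : R) = ∑ i ∈ range k, (ζ ^ i - 1) := by
    rw [Finset.sum_sub_distrib]; simp
  rw [this]
  refine Finset.dvd_sum fun i _ => ?_
  simpa using sub_dvd_pow_sub_pow ζ 1 i

lemma exists_sq_dvd (S : KummerSetting R p ζ) {x y : R} (hxy : (ζ - 1) ∣ x + y)
    (hy : ¬ (ζ - 1) ∣ y) : ∃ k : ℕ, (ζ - 1) ^ 2 ∣ x + ζ ^ k * y := by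
  obtain ⟨w, hw⟩ := hxy
  obtain ⟨n, hn⟩ := S.res w
  obtain ⟨n', hn'⟩ := S.res y
  have hpn' : ¬ (p : ℤ) ∣ n' := by
    intro h
    apply hy
    have := (S.lam_dvd_int_iff n').mpr h
    have h2 := dvd_add hn' this
    simpa using h2
  have hp : Prime (p : ℤ) := Nat.prime_iff_prime_int.mp S.prime
  obtain ⟨a, b, hab⟩ := (Prime.coprime_iff_not_dvd hp).mpr hpn'
  have hp0 : (p : ℤ) ≠ 0 := by exact_mod_cast S.prime.ne_zero
  set k₀ : ℤ := (-n * b) % p with hk₀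
  have hk₀nn : 0 ≤ k₀ := Int.emod_nonneg _ hp0
  refine ⟨k₀.toNat, ?_⟩
  have hk : ((k₀.toNat : ℕ) : ℤ) = k₀ := Int.toNat_of_nonneg hk₀nn
  have hdiv : (p : ℤ) ∣ n + k₀ * n' := by
    have h1 : (p : ℤ) ∣ (-n * b) - k₀ := by
      rw [hk₀]; exact Int.dvd_self_sub_emod
    obtain ⟨c, hc⟩ := h1
    refine ⟨n * a - c * n', ?_⟩
    have : k₀ = -n * b - p * c := by linarith
    rw [this]
    linear_combination (-n) * hab
  have hdivR : (ζ - 1) ∣ ((n + k₀ * n' : ℤ) : R) := (S.lam_dvd_int_iff _).mpr hdiv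
  have hg := lam_dvd_geom_sum_sub ζ k₀.toNat
  have hkR : ((k₀.toNat : ℕ) : R) = (k₀ : R) := by
    calc ((k₀.toNat : ℕ) : R) = (((k₀.toNat : ℕ) : ℤ) : R) := (Int.cast_natCast _).symm
      _ = (k₀ : R) := by rw [hk]
  rw [hkR] at hg
  set g := ∑ i ∈ range k₀.toNat, ζ ^ i with hgdef
  have hgeom : (ζ - 1) * g = ζ ^ k₀.toNat - 1 := mul_geom_sum ζ _
  have key : x + ζ ^ k₀.toNat * y = (ζ - 1) * (w + g * y) := by
    have : ζ ^ k₀.toNat = (ζ - 1) * g + 1 := by rw [hgeom]; ring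
    rw [this]
    linear_combination hw
  rw [key, pow_two]
  refine mul_dvd_mul_left _ ?_
  have : w + g * y = (w - n) + (g - k₀) * y + k₀ * (y - n') + ((n + k₀ * n' : ℤ) : R) := by
    push_cast; ring
  rw [this]
  exact dvd_add (dvd_add (dvd_add hn (Dvd.dvd.mul_right hg _)) (Dvd.dvd.mul_left hn' _)) hdivR

section Domain

variable [IsDomain R]

lemma lam_ne_zero (S : KummerSetting R p ζ) : ζ - 1 ≠ 0 := S.lam_prime.ne_zero

lemma one_mem (S : KummerSetting R p ζ) : (1 : R) ∈ nthRootsFinset p (1 : R) :=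
  (mem_nthRootsFinset S.prime.pos 1).mpr (one_pow _)

lemma zeta_mem (S : KummerSetting R p ζ) : ζ ∈ nthRootsFinset p (1 : R) :=
  S.prim.mem_nthRootsFinset S.prime.pos

lemma zeta_inv_mem (S : KummerSetting R p ζ) : ζ ^ (p - 1) ∈ nthRootsFinset p (1 : R) := by
  rw [mem_nthRootsFinset S.prime.pos 1, ← pow_mul, mul_comm, pow_mul, S.prim.pow_eq_one, one_pow]

lemma zeta_mul_inv (S : KummerSetting R p ζ) : ζ * ζ ^ (p - 1) = 1 := by
  rw [← pow_succ', Nat.sub_add_cancel S.prime.one_le, S.prim.pow_eq_one]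

lemma zeta_ne_one (S : KummerSetting R p ζ) : ζ ≠ 1 := S.prim.ne_one S.prime.one_lt

lemma zeta_inv_ne_one (S : KummerSetting R p ζ) : ζ ^ (p - 1) ≠ 1 := by
  intro h
  have := S.zeta_mul_inv
  rw [h, mul_one] at this
  exact S.zeta_ne_one this

lemma zeta_ne_zeta_inv (S : KummerSetting R p ζ) : ζ ≠ ζ ^ (p - 1) := by
  intro h
  have h2 : ζ ^ 2 = 1 := by
    have := S.zeta_mul_inv
    rw [← h] at this
    rw [pow_two]; exact this
  have hdvd := S.prim.dvd_of_pow_eq_one 2 h2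
  have := (Nat.prime_dvd_prime_iff_eq S.prime Nat.prime_two).mp hdvd
  exact S.odd this

lemma isUnit_one_add_zeta (S : KummerSetting R p ζ) : IsUnit (1 + ζ) := by
  have h := S.prim.geom_sum_isUnit S.prime.two_le (j := 2)
    ((Nat.coprime_primes Nat.prime_two S.prime).mpr (Ne.symm S.odd))
  simpa [Finset.sum_range_succ] using h

/-- The cofactors `(x + η y) / (ζ - 1)` are pairwise coprime. -/
lemma cofactor_coprime (S : KummerSetting R p ζ) {x y : R} (hxy : IsCoprime x y)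
    {η₁ η₂ a₁ a₂ : R} (h₁ : η₁ ∈ nthRootsFinset p (1 : R)) (h₂ : η₂ ∈ nthRootsFinset p (1 : R))
    (hne : η₁ ≠ η₂) (ha₁ : x + η₁ * y = (ζ - 1) * a₁) (ha₂ : x + η₂ * y = (ζ - 1) * a₂) :
    IsCoprime a₁ a₂ := by
  obtain ⟨u, hu⟩ := S.prim.nthRootsFinset_pairwise_associated_sub_one_sub_of_prime S.prime h₁ h₂ hne
  have e1 : a₁ - a₂ = u * y := by
    apply mul_left_cancel₀ S.lam_ne_zero
    linear_combination ha₂ - ha₁ - y * hu
  have e2 : η₂ * a₁ - η₁ * a₂ = - (u * x) := by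
    apply mul_left_cancel₀ S.lam_ne_zero
    linear_combination η₁ * ha₂ - η₂ * ha₁ + x * hu
  obtain ⟨a, b, hab⟩ := hxy
  refine ⟨(-a * η₂ + b) * (u⁻¹ : Rˣ), (a * η₁ - b) * (u⁻¹ : Rˣ), ?_⟩
  have hu1 : (u : R) * (u⁻¹ : Rˣ) = 1 := by simp
  linear_combination hab + (a * x + b * y) * hu1 + b * (u⁻¹ : Rˣ) * e1 - a * (u⁻¹ : Rˣ) * e2

end Domain

section PID

variable [IsDomain R] [IsPrincipalIdealRing R]

lemma lam_dvd_of_dvd_unit_mul_pow (S : KummerSetting R p ζ) {ε : Rˣ} {w : R} {k : ℕ}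
    (h : (ζ - 1) ∣ (ε : R) * w ^ k) : (ζ - 1) ∣ w :=
  S.lam_prime.dvd_of_dvd_pow ((Units.dvd_mul_left).mp h)

lemma descent_core (S : KummerSetting R p ζ) {m : ℕ} {x y z : R} {ε : Rˣ}
    (hxy : IsCoprime x y) (hz : ¬ (ζ - 1) ∣ z) (hm : 1 ≤ m)
    (hsq : (ζ - 1) ^ 2 ∣ x + y)
    (h : x ^ p + y ^ p = ε * ((ζ - 1) ^ m * z) ^ p) :
    2 ≤ m ∧ ∃ (x' y' z' : R) (ε' : Rˣ), IsCoprime x' y' ∧ ¬ (ζ - 1) ∣ y' ∧ ¬ (ζ - 1) ∣ z' ∧
      x' ^ p + y' ^ p = ε' * ((ζ - 1) ^ (m - 1) * z') ^ p := by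
  classical
  set l := ζ - 1 with hl
  set μ := nthRootsFinset p (1 : R) with hμ
  have hl0 : l ≠ 0 := S.lam_ne_zero
  have hlxy : l ∣ x + y := (dvd_pow_self l two_ne_zero).trans hsq
  have hdiv : ∀ η ∈ μ, ∃ a, x + η * y = l * a := by
    intro η hη
    have h1 : l ∣ η - 1 := S.prim.sub_one_dvd_sub S.prime hη S.one_mem
    have : x + η * y = (x + y) + (η - 1) * y := by ring
    rw [this]
    exact dvd_add hlxy (Dvd.dvd.mul_right h1 _)
  choose! A hA using hdiv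
  have hcop : ∀ η₁ ∈ μ, ∀ η₂ ∈ μ, η₁ ≠ η₂ → IsCoprime (A η₁) (A η₂) :=
    fun η₁ h₁ η₂ h₂ hne => S.cofactor_coprime hxy h₁ h₂ hne (hA η₁ h₁) (hA η₂ h₂)
  have hodd : Odd p := S.prime.odd_of_ne_two S.odd
  have hprod : ∏ η ∈ μ, A η = ε * (l ^ (m - 1) * z) ^ p := by
    have h1 : x ^ p + y ^ p = ∏ η ∈ μ, (x + η * y) :=
      S.prim.pow_add_pow_eq_prod_add_mul x y hodd
    have h2 : ∏ η ∈ μ, (x + η * y) = l ^ p * ∏ η ∈ μ, A η := by
      rw [Finset.prod_congr rfl hA, Finset.prod_mul_distrib, Finset.prod_const,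
        S.prim.card_nthRootsFinset]
    apply mul_left_cancel₀ (pow_ne_zero p hl0)
    rw [← h2, ← h1, h]
    have : l ^ m = l * l ^ (m - 1) := by rw [← pow_succ', Nat.sub_add_cancel hm]
    rw [this]; ring_nf
  have h1μ : (1 : R) ∈ μ := S.one_mem
  have hlA1 : l ∣ A 1 := by
    have := hA 1 h1μ
    rw [one_mul] at this
    rw [this, pow_two] at hsq
    exact (mul_dvd_mul_iff_left hl0).mp hsq
  have hlA : ∀ η ∈ μ, η ≠ 1 → ¬ l ∣ A η := by
    intro η hη hne hd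
    exact S.lam_prime.not_isUnit ((hcop η hη 1 h1μ hne).isUnit_of_dvd' hd hlA1)
  set B := ∏ η ∈ μ.erase 1, A η with hB
  have hAB : A 1 * B = ε * (l ^ (m - 1) * z) ^ p := by
    rw [hB, Finset.mul_prod_erase μ A h1μ, hprod]
  have hlB : ¬ l ∣ B := by
    intro hd
    obtain ⟨η, hη, hd'⟩ := (S.lam_prime.dvd_finsetProd_iff _).mp hd
    exact hlA η (Finset.mem_of_mem_erase hη) (Finset.ne_of_mem_erase hη) hd'
  have hm2 : 2 ≤ m := by
    by_contra hlt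
    have hm1 : m = 1 := by omega
    have h1 : l ∣ ε * (l ^ (m - 1) * z) ^ p := hAB ▸ Dvd.dvd.mul_right hlA1 B
    have h2 := S.lam_dvd_of_dvd_unit_mul_pow h1
    rw [hm1] at h2
    simp only [Nat.sub_self, pow_zero, one_mul] at h2
    exact hz h2
  have hpow : l ^ ((m - 1) * p) ∣ A 1 := by
    apply S.lam_prime.pow_dvd_of_dvd_mul_right _ hlB
    rw [hAB, mul_pow, ← pow_mul]
    exact Dvd.dvd.mul_left (Dvd.intro _ rfl) _
  obtain ⟨A1', hA1'⟩ := hpow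
  have hA1B : A1' * B = ε * z ^ p := by
    apply mul_left_cancel₀ (pow_ne_zero ((m - 1) * p) hl0)
    rw [← mul_assoc, ← hA1', hAB, mul_pow, ← pow_mul]; ring
  have hlA1' : ¬ l ∣ A1' := by
    intro hd
    have h1 : l ∣ ε * z ^ p := hA1B ▸ Dvd.dvd.mul_right hd B
    exact hz (S.lam_dvd_of_dvd_unit_mul_pow h1)
  have hcopA1B : IsCoprime (A 1) B := IsCoprime.prod_right fun η hη =>
    hcop 1 h1μ η (Finset.mem_of_mem_erase hη) (Finset.ne_of_mem_erase hη).symm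
  have hcopA1'B : IsCoprime A1' B := by
    rw [hA1'] at hcopA1B; exact hcopA1B.of_mul_left_right
  obtain ⟨ρ₁, u₁, hρ₁⟩ := exists_associated_pow_of_associated_pow_mul hcopA1'B (c := z) (k := p)
    ⟨ε, by rw [hA1B]; ring⟩
  have hpowη : ∀ η ∈ μ, ∃ ρ : R, Associated (ρ ^ p) (A η) := by
    intro η hη
    have hc : IsCoprime (A η) (∏ η' ∈ μ.erase η, A η') := IsCoprime.prod_right fun η' hη' =>
      hcop η hη η' (Finset.mem_of_mem_erase hη') (Finset.ne_of_mem_erase hη').symm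
    refine exists_associated_pow_of_associated_pow_mul hc (c := l ^ (m - 1) * z) (k := p) ⟨ε, ?_⟩
    rw [Finset.mul_prod_erase μ A hη, hprod]; ring
  obtain ⟨ρ₂, u₂, hρ₂⟩ := hpowη ζ S.zeta_mem
  obtain ⟨ρ₃, u₃, hρ₃⟩ := hpowη (ζ ^ (p - 1)) S.zeta_inv_mem
  have hrel : A ζ + ζ * A (ζ ^ (p - 1)) = (1 + ζ) * A 1 := by
    apply mul_left_cancel₀ hl0
    have e1 := hA ζ S.zeta_mem
    have e2 := hA (ζ ^ (p - 1)) S.zeta_inv_mem
    have e3 := hA 1 h1μ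
    have e4 := S.zeta_mul_inv
    linear_combination -e1 - ζ * e2 + (1 + ζ) * e3 + y * e4
  obtain ⟨uζ, huζ⟩ : IsUnit ζ := S.prim.isUnit S.prime.ne_zero
  obtain ⟨v, hv⟩ := S.isUnit_one_add_zeta
  obtain ⟨ε₁, hε₁⟩ : ∃ ε₁ : Rˣ, ε₁ = uζ * u₃ * u₂⁻¹ := ⟨_, rfl⟩
  obtain ⟨ε₂, hε₂⟩ : ∃ ε₂ : Rˣ, ε₂ = v * u₁ * u₂⁻¹ := ⟨_, rfl⟩
  have hnew : ρ₂ ^ p + ε₁ * ρ₃ ^ p = ε₂ * (l ^ (m - 1) * ρ₁) ^ p := by
    have hu2 : (u₂ : R) * (u₂⁻¹ : Rˣ) = 1 := by simp
    rw [hε₁, hε₂]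
    simp only [Units.val_mul, huζ, hv]
    rw [mul_pow, ← pow_mul]
    rw [← hρ₂, ← hρ₃, hA1', ← hρ₁] at hrel
    linear_combination (u₂⁻¹ : Rˣ) * hrel - ρ₂ ^ p * hu2
  have hpdvd : (p : R) ∣ (l ^ (m - 1) * ρ₁) ^ p := by
    rw [mul_pow, ← pow_mul]
    exact Dvd.dvd.mul_right (S.p_dvd_lam_pow
      (Nat.le_trans (Nat.sub_le p 1) (Nat.le_mul_of_pos_left p (by omega)))) _
  have hlρ₃ : ¬ l ∣ ρ₃ := by
    intro hd
    apply hlA (ζ ^ (p - 1)) S.zeta_inv_mem S.zeta_inv_ne_one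
    rw [← hρ₃]
    exact Dvd.dvd.mul_right (dvd_pow hd S.prime.ne_zero) _
  obtain ⟨n₂, hn₂⟩ := S.exists_int_pow ρ₂
  obtain ⟨n₃, hn₃⟩ := S.exists_int_pow ρ₃
  have hpn₃ : ¬ (p : ℤ) ∣ n₃ := by
    intro hd
    have h1 : l ∣ (n₃ : R) := (S.lam_dvd_int_iff n₃).mpr hd
    have h2 : l ∣ ρ₃ ^ p - n₃ := S.lam_dvd_p.trans hn₃
    have h3 : l ∣ ρ₃ ^ p := by simpa using dvd_add h2 h1
    exact hlρ₃ (S.lam_prime.dvd_of_dvd_pow h3)
  have hp : Prime (p : ℤ) := Nat.prime_iff_prime_int.mp S.prime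
  obtain ⟨a, b, hab⟩ := (Prime.coprime_iff_not_dvd hp).mpr hpn₃
  have hcong : ∃ n : ℤ, (p : R) ∣ (ε₁ : R) - n := by
    refine ⟨- b * n₂, ?_⟩
    obtain ⟨c₁, hc₁⟩ := hpdvd
    obtain ⟨c₂, hc₂⟩ := hn₂
    obtain ⟨c₃, hc₃⟩ := hn₃
    have habR : (a : R) * p + b * n₃ = 1 := by
      have := congrArg (Int.cast : ℤ → R) hab
      push_cast at this
      exact this
    refine ⟨ε₁ * a + b * (ε₂ * c₁ - c₂ - ε₁ * c₃), ?_⟩
    push_cast
    rw [hc₁] at hnew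
    linear_combination (-(ε₁ : R)) * habR + b * hnew - b * hc₂ - b * ε₁ * hc₃
  obtain ⟨δ, hδ⟩ := S.kummer ε₁ hcong
  refine ⟨hm2, ρ₂, δ * ρ₃, ρ₁, ε₂, ?_, ?_, ?_, ?_⟩
  · have h1 : IsCoprime (A ζ) (A (ζ ^ (p - 1))) :=
      hcop _ S.zeta_mem _ S.zeta_inv_mem S.zeta_ne_zeta_inv
    rw [← hρ₂, ← hρ₃] at h1
    have h2 : IsCoprime (ρ₂ ^ p) (ρ₃ ^ p) := h1.of_mul_left_left.of_mul_right_left
    have h3 : IsCoprime ρ₂ ρ₃ := (IsCoprime.pow_iff S.prime.pos S.prime.pos).mp h2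
    exact (isCoprime_mul_unit_left_right δ.isUnit _ _).mpr h3
  · rw [Units.dvd_mul_left]; exact hlρ₃
  · intro hd
    apply hlA1'
    rw [← hρ₁]
    exact Dvd.dvd.mul_right (dvd_pow hd S.prime.ne_zero) _
  · rw [mul_pow, ← Units.val_pow_eq_pow_val, ← hδ]; exact hnew

theorem no_solution (S : KummerSetting R p ζ) : ∀ (m : ℕ) (x y z : R) (ε : Rˣ),
    IsCoprime x y → ¬ (ζ - 1) ∣ y → ¬ (ζ - 1) ∣ z → 1 ≤ m →
      x ^ p + y ^ p ≠ ε * ((ζ - 1) ^ m * z) ^ p := by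
  intro m
  induction m with
  | zero => intro x y z ε _ _ _ hm; omega
  | succ m ih =>
    intro x y z ε hxy hy hz _ h
    have h1 : (ζ - 1) ∣ x ^ p + y ^ p := by
      rw [h, mul_pow, ← pow_mul]
      refine Dvd.dvd.mul_left (Dvd.dvd.mul_right (dvd_pow_self _ ?_) _) _
      exact Nat.mul_ne_zero (Nat.succ_ne_zero m) S.prime.ne_zero
    obtain ⟨k, hk⟩ := S.exists_sq_dvd (S.lam_dvd_add h1) hy
    have hu : IsUnit (ζ ^ k) := (S.prim.isUnit S.prime.ne_zero).pow k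
    have hxy' : IsCoprime x (ζ ^ k * y) := (isCoprime_mul_unit_left_right hu _ _).mpr hxy
    have h' : x ^ p + (ζ ^ k * y) ^ p = ε * ((ζ - 1) ^ (m + 1) * z) ^ p := by
      rw [mul_pow, ← pow_mul, mul_comm k p, pow_mul, S.prim.pow_eq_one, one_pow, one_mul, h]
    obtain ⟨hm2, x', y', z', ε', hc', hy', hz', hsol⟩ :=
      S.descent_core hxy' hz (Nat.succ_le_succ (Nat.zero_le m)) hk h'
    exact ih x' y' z' ε' hc' hy' hz' (by omega) hsol

theorem caseII (S : KummerSetting R p ζ) {a b c : ℤ} (hab : IsCoprime a b) (hc0 : c ≠ 0)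
    (hpc : (p : ℤ) ∣ c) (h : a ^ p + b ^ p = c ^ p) : False := by
  have hp : Prime (p : ℤ) := Nat.prime_iff_prime_int.mp S.prime
  have hpb : ¬ (p : ℤ) ∣ b := by
    intro hb
    have h1 : (p : ℤ) ∣ a ^ p := by
      have : a ^ p = c ^ p - b ^ p := by linarith
      rw [this]
      exact dvd_sub (dvd_pow hpc S.prime.ne_zero) (dvd_pow hb S.prime.ne_zero)
    exact hp.not_isUnit (hab.isUnit_of_dvd' (hp.dvd_of_dvd_pow h1) hb)
  have hfin : FiniteMultiplicity (p : ℤ) c :=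
    Int.finiteMultiplicity_iff.mpr ⟨by
      simpa using S.prime.one_lt.ne', hc0⟩
  obtain ⟨c', hc', hpc'⟩ := hfin.exists_eq_pow_mul_and_not_dvd
  set k := multiplicity (p : ℤ) c with hk
  have hk1 : 1 ≤ k := by
    rcases Nat.eq_zero_or_pos k with h0 | h0
    · exfalso
      rw [h0, pow_zero, one_mul] at hc'
      exact hpc' (hc' ▸ hpc)
    · exact h0
  obtain ⟨u, hu⟩ := S.assoc.symm
  -- hu : (ζ - 1) ^ (p - 1) * u = p
  have hR : (a : R) ^ p + (b : R) ^ p = ((u ^ k) ^ p : Rˣ) * ((ζ - 1) ^ ((p - 1) * k) * (c' : R)) ^ p := by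
    have h1 := congrArg (Int.cast : ℤ → R) h
    push_cast at h1
    rw [h1]
    have h2 : (c : R) = ((p : R)) ^ k * (c' : R) := by
      have := congrArg (Int.cast : ℤ → R) hc'
      push_cast at this
      exact this
    rw [h2, ← hu]
    push_cast
    ring
  refine S.no_solution ((p - 1) * k) (a : R) (b : R) (c' : R) ((u ^ k) ^ p) hab.intCast ?_ ?_ ?_ hR
  · rw [S.lam_dvd_int_iff]; exact hpb
  · rw [S.lam_dvd_int_iff]; exact hpc'
  · have : 1 ≤ p - 1 := by have := S.prime.two_le; omega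
    exact Nat.mul_pos this hk1

theorem no_coprime_solution (S : KummerSetting R p ζ)
    (hI : ∀ a b c : ℤ, IsCoprime a b → a ^ p + b ^ p = c ^ p → (p : ℤ) ∣ a * b * c)
    {a b c : ℤ} (hab : IsCoprime a b) (ha : a ≠ 0) (hb : b ≠ 0) (hc : c ≠ 0)
    (h : a ^ p + b ^ p = c ^ p) : False := by
  have hp : Prime (p : ℤ) := Nat.prime_iff_prime_int.mp S.prime
  have hodd : Odd p := S.prime.odd_of_ne_two S.odd
  have hppos : 0 < p := S.prime.pos
  have hcb : IsCoprime c b := by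
    rw [← IsCoprime.pow_iff hppos hppos, ← h]
    have : IsCoprime (a ^ p) (b ^ p) := hab.pow
    simpa using this.add_mul_left_left 1
  have hca : IsCoprime c a := by
    rw [← IsCoprime.pow_iff hppos hppos, ← h]
    have : IsCoprime (b ^ p) (a ^ p) := hab.symm.pow
    have h2 := this.add_mul_left_left 1
    rw [mul_one, add_comm] at h2
    exact h2
  rcases hp.dvd_or_dvd (hI a b c hab h) with h1 | h1
  · rcases hp.dvd_or_dvd h1 with h2 | h2
    · refine S.caseII (a := c) (b := -b) (c := a) hcb.neg_right ha h2 ?_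
      rw [hodd.neg_pow]; linarith
    · refine S.caseII (a := c) (b := -a) (c := b) hca.neg_right hb h2 ?_
      rw [hodd.neg_pow]; linarith
  · exact S.caseII hab hc h1 h

end PID

end KummerSetting

end Fermat.Agent.FLTSmall
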