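import Mathlib

/-!
Logarithmic derivative bookkeeping for polynomials over a field, truncated at `X ^ N`.
-/

set_option autoImplicit false

namespace Fermat.Agent.FLTSmall

open Polynomial Finset

variable {F : Type*} [Field F]

/-- `L` is the logarithmic derivative of `G` modulo `X ^ N`. -/
def LogRel (N : ℕ) (G L : F[X]) : Prop := X ^ N ∣ derivative G - G * L

namespace LogRel

variable {N : ℕ}

lemma one : LogRel N (1 : F[X]) 0 := by
  simp [LogRel]

lemma mul {G₁ G₂ L₁ L₂ : F[X]} (h₁ : LogRel N G₁ L₁) (h₂ : LogRel N G₂ L₂) :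
    LogRel N (G₁ * G₂) (L₁ + L₂) := by
  unfold LogRel at *
  have : derivative (G₁ * G₂) - G₁ * G₂ * (L₁ + L₂) =
      (derivative G₁ - G₁ * L₁) * G₂ + G₁ * (derivative G₂ - G₂ * L₂) := by
    rw [derivative_mul]; ring
  rw [this]
  exact dvd_add (Dvd.dvd.mul_right h₁ _) (Dvd.dvd.mul_left h₂ _)

lemma pow {G L : F[X]} (h : LogRel N G L) (e : ℕ) : LogRel N (G ^ e) ((e : F[X]) * L) := by
  induction e with
  | zero => simpa using (one : LogRel N (1 : F[X]) 0)
  | succ e ih =>
    have := ih.mul h
    rw [pow_succ]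
    convert this using 1
    push_cast; ring

lemma prod {ι : Type*} (s : Finset ι) (G L : ι → F[X]) (e : ι → ℕ)
    (h : ∀ i ∈ s, LogRel N (G i) (L i)) :
    LogRel N (∏ i ∈ s, G i ^ e i) (∑ i ∈ s, (e i : F[X]) * L i) := by
  classical
  induction s using Finset.induction_on with
  | empty => simpa using (one : LogRel N (1 : F[X]) 0)
  | insert a s ha ih =>
    rw [Finset.prod_insert ha, Finset.sum_insert ha]
    exact ((h a (Finset.mem_insert_self a s)).pow (e a)).mul
      (ih fun i hi => h i (Finset.mem_insert_of_mem hi))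

/-- If `G` is constant modulo `X ^ (N + 1)` and is not divisible by `X`, its logarithmic
derivative vanishes modulo `X ^ N`. -/
lemma dvd_of_const {G L : F[X]} (h : LogRel N G L) {c : F} (hc : X ^ (N + 1) ∣ G - C c)
    (hG : ¬ X ∣ G) : X ^ N ∣ L := by
  obtain ⟨Q, hQ⟩ := hc
  have hG' : G = C c + X ^ (N + 1) * Q := by rw [← hQ]; ring
  have hd : X ^ N ∣ derivative G := by
    rw [hG', derivative_add, derivative_C, zero_add, derivative_mul, derivative_X_pow]
    refine dvd_add ?_ ?_
    · simp only [Nat.add_sub_cancel]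
      exact Dvd.dvd.mul_right (Dvd.dvd.mul_left (dvd_refl _) _) _
    · exact Dvd.dvd.mul_right (pow_dvd_pow _ (Nat.le_succ N)) _
  have h2 : X ^ N ∣ G * L := by
    have := dvd_sub hd h
    simpa using this
  exact prime_X.pow_dvd_of_dvd_mul_left N hG h2

end LogRel

end Fermat.Agent.FLTSmall
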