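import Mathlib
import Fermat.Agent.FLTSmall.LogRel
import Fermat.Agent.FLTSmall.Descent

/-!
Kummer's lemma for a cyclotomic field from explicit unit data.
-/

set_option autoImplicit false
set_option linter.unusedSectionVars false

namespace Fermat.Agent.FLTSmall

open Polynomial NumberField

section

variable {p : ℕ} [hp : Fact p.Prime]

lemma cyclotomic_zmod_self : cyclotomic p (ZMod p) = (X - 1) ^ (p - 1) := by
  have h1 : ¬ p ∣ 1 := fun h => hp.out.one_lt.ne' (Nat.dvd_one.mp h)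
  have := cyclotomic_mul_prime_pow_eq (ZMod p) (p := p) (m := 1) h1 (k := 1) one_pos
  simpa using this

variable {K : Type*} [Field K] [NumberField K] [IsCyclotomicExtension {p} ℚ K]
  {ζ : K} (hζ : IsPrimitiveRoot ζ p)

lemma X_pow_dvd_of_dvd_aeval (F : ℤ[X]) (h : (p : 𝓞 K) ∣ aeval (hζ.toInteger - 1) F) :
    X ^ (p - 1) ∣ F.map (Int.castRingHom (ZMod p)) := by
  obtain ⟨w, hw⟩ := h
  obtain ⟨W, hW⟩ := hζ.integralPowerBasis.exists_eq_aeval' w
  rw [hζ.integralPowerBasis_gen] at hW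
  set G : ℤ[X] := F.comp (X - 1) - C (p : ℤ) * W with hG
  have h0 : aeval hζ.toInteger G = 0 := by
    rw [hG, map_sub, aeval_comp, map_mul, ← hW, aeval_C]
    simp only [map_sub, aeval_X, map_one]
    rw [hw]
    simp
  have hK : aeval ζ G = 0 := by
    have := congrArg (algebraMap (𝓞 K) K) h0
    rw [← aeval_algebraMap_apply, map_zero] at this
    exact this
  have hdvd : cyclotomic p ℤ ∣ G := by
    rw [cyclotomic_eq_minpoly hζ hp.out.pos]
    exact minpoly.isIntegrallyClosed_dvd (hζ.isIntegral hp.out.pos) hK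
  have hdvd2 := Polynomial.map_dvd (Int.castRingHom (ZMod p)) hdvd
  rw [map_cyclotomic, cyclotomic_zmod_self] at hdvd2
  have hGmap : G.map (Int.castRingHom (ZMod p)) = (F.map (Int.castRingHom (ZMod p))).comp (X - 1) := by
    rw [hG, Polynomial.map_sub, Polynomial.map_comp, Polynomial.map_mul, Polynomial.map_C]
    simp
  rw [hGmap] at hdvd2
  obtain ⟨Q, hQ⟩ := hdvd2
  refine ⟨Q.comp (X + 1), ?_⟩
  have := congrArg (fun P : (ZMod p)[X] => P.comp (X + 1)) hQ
  simp only [comp_assoc, mul_comp, pow_comp, sub_comp, X_comp, one_comp, add_sub_cancel_right,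
    comp_X] at this
  exact this

local notation "φp" => Int.castRingHom (ZMod p)

lemma indep_of_data {ι : Type*} [Fintype ι] (c : ι → (𝓞 K)ˣ) (Cp Lp : ι → ℤ[X])
    (hC : ∀ i, aeval (hζ.toInteger - 1) (Cp i) = (c i : 𝓞 K))
    (hrel : ∀ i, LogRel (p - 2) ((Cp i).map φp) ((Lp i).map φp))
    (hunit : ∀ i, ¬ X ∣ (Cp i).map φp)
    (hind : ∀ e : ι → ℕ, X ^ (p - 2) ∣ ∑ i, (e i : (ZMod p)[X]) * (Lp i).map φp → ∀ i, p ∣ e i)
    (e : ι → ℕ) (n : ℤ) (h : (p : 𝓞 K) ∣ ((∏ i, c i ^ e i : (𝓞 K)ˣ) : 𝓞 K) - n) :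
    ∀ i, p ∣ e i := by
  apply hind e
  set F : ℤ[X] := ∏ i, Cp i ^ e i - C n with hF
  have haev : aeval (hζ.toInteger - 1) F = ((∏ i, c i ^ e i : (𝓞 K)ˣ) : 𝓞 K) - n := by
    rw [hF, map_sub, map_prod, aeval_C]
    simp only [map_pow, hC, Units.coe_prod, Units.val_pow_eq_pow_val]
    simp
  have h1 := X_pow_dvd_of_dvd_aeval hζ F (haev ▸ h)
  have hFmap : F.map φp = ∏ i, ((Cp i).map φp) ^ e i - C (n : ZMod p) := by
    rw [hF, Polynomial.map_sub, Polynomial.map_prod, Polynomial.map_C]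
    simp
  rw [hFmap] at h1
  have hp2 : p - 1 = (p - 2) + 1 := by have := hp.out.two_le; omega
  rw [hp2] at h1
  have hrelprod := LogRel.prod (N := p - 2) Finset.univ (fun i => (Cp i).map φp)
    (fun i => (Lp i).map φp) e (fun i _ => hrel i)
  refine hrelprod.dvd_of_const h1 ?_
  intro hX
  obtain ⟨i, -, hi⟩ := (prime_X.dvd_finsetProd_iff _).mp hX
  exact hunit i (prime_X.dvd_of_dvd_pow hi)

end

section Counting

variable (p : ℕ) [hp : Fact p.Prime] (K : Type*) [Field K] [NumberField K]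

/-- The subgroup of `p`-th powers of units. -/
def powSubgroup : Subgroup (𝓞 K)ˣ := (powMonoidHom p : (𝓞 K)ˣ →* (𝓞 K)ˣ).range

lemma mem_powSubgroup {u : (𝓞 K)ˣ} : u ∈ powSubgroup p K ↔ ∃ v : (𝓞 K)ˣ, v ^ p = u := by
  simp [powSubgroup, MonoidHom.mem_range]

lemma mk_zpow_eq (g : (𝓞 K)ˣ) (b : ℤ) :
    (QuotientGroup.mk' (powSubgroup p K) g) ^ b =
      (QuotientGroup.mk' (powSubgroup p K) g) ^ ((b : ZMod p).val) := by
  have h1 : (QuotientGroup.mk' (powSubgroup p K) g) ^ (p : ℤ) = 1 := by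
    rw [zpow_natCast, ← map_pow]
    exact (QuotientGroup.eq_one_iff _).mpr ((mem_powSubgroup p K).mpr ⟨g, rfl⟩)
  rw [zpow_eq_zpow_emod b h1, ← ZMod.val_intCast, zpow_natCast]

lemma exists_surj_quot : ∃ ψ : (ZMod p × (Fin (Units.rank K) → ZMod p)) →
    (𝓞 K)ˣ ⧸ powSubgroup p K, Function.Surjective ψ := by
  obtain ⟨t, ht⟩ := IsCyclic.exists_generator (α := Units.torsion K)
  refine ⟨fun a => QuotientGroup.mk' (powSubgroup p K)
    ((t : (𝓞 K)ˣ) ^ a.1.val * ∏ i, Units.fundSystem K i ^ (a.2 i).val), ?_⟩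
  intro q
  obtain ⟨x, rfl⟩ := QuotientGroup.mk'_surjective (powSubgroup p K) q
  obtain ⟨⟨τ, b⟩, hx, -⟩ := Units.exist_unique_eq_mul_prod K x
  obtain ⟨k, hk⟩ := Subgroup.mem_zpowers_iff.mp (ht τ)
  refine ⟨((k : ZMod p), fun i => (b i : ZMod p)), ?_⟩
  simp only at hx ⊢
  rw [hx, ← hk]
  simp only [map_mul, map_prod, map_pow, Subgroup.coe_zpow, map_zpow]
  rw [mk_zpow_eq]
  congr 1
  refine Finset.prod_congr rfl fun i _ => ?_
  rw [mk_zpow_eq]

lemma finite_quot : Finite ((𝓞 K)ˣ ⧸ powSubgroup p K) := by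
  obtain ⟨ψ, hψ⟩ := exists_surj_quot p K
  exact Finite.of_surjective ψ hψ

lemma card_quot_le : Nat.card ((𝓞 K)ˣ ⧸ powSubgroup p K) ≤ p ^ (Units.rank K + 1) := by
  obtain ⟨ψ, hψ⟩ := exists_surj_quot p K
  have h1 := Nat.card_le_card_of_surjective ψ hψ
  have h2 : Nat.card (ZMod p × (Fin (Units.rank K) → ZMod p)) = p ^ (Units.rank K + 1) := by
    rw [Nat.card_prod, Nat.card_fun, Nat.card_zmod, Nat.card_fin, pow_succ, mul_comm]
  exact h2 ▸ h1

end Counting

section Main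

variable {p : ℕ} [hp : Fact p.Prime] {K : Type*} [Field K] [NumberField K]
  [IsCyclotomicExtension {p} ℚ K] {ζ : K} (hζ : IsPrimitiveRoot ζ p)

lemma exists_int_sub_dvd (x : 𝓞 K) : ∃ n : ℤ, (hζ.toInteger - 1) ∣ x - (n : 𝓞 K) := by
  obtain ⟨f, hf⟩ := hζ.integralPowerBasis.exists_eq_aeval' x
  rw [hζ.integralPowerBasis_gen] at hf
  refine ⟨f.eval 1, ?_⟩
  have h1 : ((f.eval 1 : ℤ) : 𝓞 K) = aeval (1 : 𝓞 K) f := by
    have := Polynomial.aeval_algebraMap_apply_eq_algebraMap_eval (A := 𝓞 K) (1 : ℤ) f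
    rw [map_one] at this
    rw [this]; simp
  rw [h1, hf, aeval_def, aeval_def, eval₂_eq_eval_map, eval₂_eq_eval_map]
  exact Polynomial.sub_dvd_eval_sub _ _ _

lemma cycloSetting (hp2 : p ≠ 2) : CycloSetting (𝓞 K) p hζ.toInteger where
  prime := hp.out
  odd := hp2
  prim := hζ.toInteger_isPrimitiveRoot
  lam_prime := hζ.zeta_sub_one_prime'
  res := exists_int_sub_dvd hζ
  assoc := (IsCyclotomicExtension.Rat.associated_zeta_sub_one_pow_prime p hζ).symm

include hζ in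
theorem kummer_of_indep (hp2 : p ≠ 2) {ι : Type*} [Fintype ι]
    (hcard : Units.rank K + 1 ≤ Fintype.card ι) (c : ι → (𝓞 K)ˣ)
    (hind : ∀ (e : ι → ℕ) (n : ℤ),
      (p : 𝓞 K) ∣ ((∏ i, c i ^ e i : (𝓞 K)ˣ) : 𝓞 K) - n → ∀ i, p ∣ e i)
    (u : (𝓞 K)ˣ) (hu : ∃ n : ℤ, (p : 𝓞 K) ∣ (u : 𝓞 K) - n) : ∃ v : (𝓞 K)ˣ, u = v ^ p := by
  have S := cycloSetting hζ hp2
  set φ : (ι → ZMod p) → (𝓞 K)ˣ ⧸ powSubgroup p K :=
    fun e => QuotientGroup.mk' (powSubgroup p K) (∏ i, c i ^ (e i).val) with hφ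
  have hinj : Function.Injective φ := by
    intro e e' h
    obtain ⟨v, hv⟩ := (mem_powSubgroup p K).mp (QuotientGroup.eq.mp h)
    set P := ∏ i, c i ^ (e i).val with hP
    set P' := ∏ i, c i ^ (e' i).val with hP'
    have hPP' : P' = v ^ p * P := by rw [hv, mul_comm, mul_inv_cancel_left]
    have hf : ∏ i, c i ^ ((e' i).val + (p - 1) * (e i).val) = (v * P) ^ p := by
      have h1 : ∏ i, c i ^ ((e' i).val + (p - 1) * (e i).val) = P' * P ^ (p - 1) := by
        rw [hP, hP', ← Finset.prod_pow, ← Finset.prod_mul_distrib]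
        refine Finset.prod_congr rfl fun i _ => ?_
        rw [pow_add, mul_comm (p - 1), pow_mul]
      rw [h1, hPP', mul_pow, mul_assoc, ← pow_succ', Nat.sub_add_cancel hp.out.one_le]
    obtain ⟨n, hn⟩ := S.exists_int_pow ((v * P : (𝓞 K)ˣ) : 𝓞 K)
    have hdvd := hind (fun i => (e' i).val + (p - 1) * (e i).val) n (by
      rw [hf, Units.val_pow_eq_pow_val]; exact hn)
    funext i
    have h2 := (ZMod.natCast_eq_zero_iff _ p).mpr (hdvd i)
    push_cast [Nat.cast_sub hp.out.one_le] at h2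
    simp only [ZMod.natCast_val, ZMod.cast_id', id_eq, CharP.cast_eq_zero, zero_sub] at h2
    linear_combination -h2
  have := finite_quot p K
  have hbij : Function.Bijective φ := by
    apply hinj.bijective_of_nat_card_le
    calc Nat.card ((𝓞 K)ˣ ⧸ powSubgroup p K) ≤ p ^ (Units.rank K + 1) := card_quot_le p K
      _ ≤ p ^ Fintype.card ι := Nat.pow_le_pow_right hp.out.pos hcard
      _ = Nat.card (ι → ZMod p) := by
        rw [Nat.card_fun, Nat.card_zmod, Nat.card_eq_fintype_card]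
  obtain ⟨e, he⟩ := hbij.2 (QuotientGroup.mk' (powSubgroup p K) u)
  obtain ⟨v, hv⟩ := (mem_powSubgroup p K).mp (QuotientGroup.eq.mp he)
  set P := ∏ i, c i ^ (e i).val with hP
  have hPu : P = u * (v⁻¹) ^ p := by rw [inv_pow, hv]; group
  obtain ⟨n, hn⟩ := hu
  obtain ⟨n', hn'⟩ := S.exists_int_pow ((v⁻¹ : (𝓞 K)ˣ) : 𝓞 K)
  have hdvd := hind (fun i => (e i).val) (n * n') (by
    rw [← hP, hPu]
    push_cast
    have : (u : 𝓞 K) * ((v⁻¹ : (𝓞 K)ˣ) : 𝓞 K) ^ p - n * n' =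
      ((u : 𝓞 K) - n) * ((v⁻¹ : (𝓞 K)ˣ) : 𝓞 K) ^ p + n * (((v⁻¹ : (𝓞 K)ˣ) : 𝓞 K) ^ p - n') := by
      ring
    rw [this]
    exact dvd_add (Dvd.dvd.mul_right hn _) (Dvd.dvd.mul_left hn' _))
  have hzero : ∀ i, (e i).val = 0 := fun i =>
    Nat.eq_zero_of_dvd_of_lt (hdvd i) (ZMod.val_lt _)
  have hP1 : P = 1 := by
    rw [hP]
    exact Finset.prod_eq_one fun i _ => by rw [hzero i, pow_zero]
  refine ⟨v, ?_⟩
  rw [hv, hP1]; simp

lemma rank_add_one (hp2 : p ≠ 2) : Units.rank K + 1 = (p - 1) / 2 := by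
  have h3 : 2 < p := lt_of_le_of_ne hp.out.two_le (Ne.symm hp2)
  have h1 := IsCyclotomicExtension.Rat.nrRealPlaces_eq_zero (n := p) K h3
  have h2 := IsCyclotomicExtension.Rat.nrComplexPlaces_eq_totient_div_two p K
  rw [Nat.totient_prime hp.out] at h2
  have h4 := InfinitePlace.card_eq_nrRealPlaces_add_nrComplexPlaces K
  rw [h1, h2, zero_add] at h4
  rw [Units.rank, h4]
  have : 1 ≤ (p - 1) / 2 := by omega
  omega

/-- Polynomials (in the variable `ζ - 1`) representing `ζ` and the cyclotomic units. -/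
noncomputable def unitPoly (i : ℕ) : ℤ[X] :=
  if i = 0 then 1 + X else ∑ j ∈ Finset.range (i + 1), (1 + X) ^ j

lemma aeval_unitPoly_isUnit (i : ℕ) (hi : i + 1 < p) :
    IsUnit (aeval (hζ.toInteger - 1) (unitPoly i)) := by
  unfold unitPoly
  split_ifs with h0
  · simp only [map_add, map_one, aeval_X, add_sub_cancel]
    exact hζ.toInteger_isPrimitiveRoot.isUnit hp.out.ne_zero
  · simp only [map_sum, map_pow, map_add, map_one, aeval_X, add_sub_cancel]
    exact hζ.toInteger_isPrimitiveRoot.geom_sum_isUnit hp.out.two_le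
      (Nat.coprime_of_lt_prime (Nat.succ_ne_zero i) hi hp.out).symm

lemma not_X_dvd_unitPoly (i : ℕ) (hi : i + 1 < p) :
    ¬ X ∣ (unitPoly i).map (Int.castRingHom (ZMod p)) := by
  rw [X_dvd_iff, coeff_map, coeff_zero_eq_eval_zero]
  unfold unitPoly
  split_ifs with h0
  · simp
  · simp only [eval_finsetSum, eval_pow, eval_add, eval_one, eval_X, add_zero, one_pow,
      Finset.sum_const, Finset.card_range]
    intro h
    have h2 : ((i + 1 : ℕ) : ZMod p) = 0 := by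
      simpa using h
    rw [ZMod.natCast_eq_zero_iff] at h2
    exact absurd (Nat.le_of_dvd (Nat.succ_pos i) h2) (by omega)

lemma logRel_of_int {N : ℕ} (G L M Q : ℤ[X])
    (h : derivative G - G * L = X ^ N * M + C (p : ℤ) * Q) :
    LogRel N (G.map (Int.castRingHom (ZMod p))) (L.map (Int.castRingHom (ZMod p))) := by
  unfold LogRel
  refine ⟨M.map (Int.castRingHom (ZMod p)), ?_⟩
  have := congrArg (Polynomial.map (Int.castRingHom (ZMod p))) h
  rw [Polynomial.map_sub, Polynomial.map_mul, Polynomial.map_add, Polynomial.map_mul,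
    Polynomial.map_mul, Polynomial.map_pow, Polynomial.map_X, Polynomial.map_C,
    ← derivative_map] at this
  rw [this]
  simp

lemma hind_of_matrix {n N : ℕ} (l : Matrix (Fin n) (Fin N) ℤ) (W : Matrix (Fin N) (Fin n) (ZMod p))
    (hW : (l.map (Int.cast : ℤ → ZMod p)) * W = 1)
    (Lp : Fin n → ℤ[X]) (hL : ∀ i, Lp i = ∑ d : Fin N, C (l i d) * X ^ (d : ℕ))
    (e : Fin n → ℕ)
    (h : X ^ N ∣ ∑ i, (e i : (ZMod p)[X]) * (Lp i).map (Int.castRingHom (ZMod p))) :
    ∀ i, p ∣ e i := by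
  rw [X_pow_dvd_iff] at h
  have hvec : Matrix.vecMul (fun i => (e i : ZMod p)) (l.map (Int.cast : ℤ → ZMod p)) = 0 := by
    funext d
    have hd := h d d.2
    rw [finsetSum_coeff] at hd
    simp only [Matrix.vecMul, dotProduct, Matrix.map_apply, Pi.zero_apply]
    rw [← hd]
    refine Finset.sum_congr rfl fun i _ => ?_
    rw [← C_eq_natCast, coeff_C_mul, coeff_map, hL i, finsetSum_coeff]
    congr 1
    simp only [coeff_C_mul, coeff_X_pow]
    rw [Finset.sum_eq_single d]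
    · simp
    · intro b _ hb
      have : (d : ℕ) ≠ (b : ℕ) := fun hh => hb (Fin.ext hh.symm)
      simp [this]
    · simp
  have h0 : (fun i => (e i : ZMod p)) = 0 := by
    have := Matrix.vecMul_vecMul (fun i => (e i : ZMod p)) (l.map (Int.cast : ℤ → ZMod p)) W
    rw [hvec, hW, Matrix.vecMul_one, Matrix.zero_vecMul] at this
    exact this.symm
  intro i
  have := congrFun h0 i
  exact (ZMod.natCast_eq_zero_iff _ _).mp this

/-- Kummer's lemma and the whole setting from a finite certificate. -/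
theorem kummerSetting_of_cert (hp2 : p ≠ 2) (n : ℕ) (hn : n = (p - 1) / 2)
    (l : Matrix (Fin n) (Fin (p - 2)) ℤ) (W : Matrix (Fin (p - 2)) (Fin n) (ZMod p))
    (hW : (l.map (Int.cast : ℤ → ZMod p)) * W = 1)
    (M Q : Fin n → ℤ[X])
    (hcert : ∀ i : Fin n, derivative (unitPoly i) - unitPoly i *
      (∑ d : Fin (p - 2), C (l i d) * X ^ (d : ℕ)) = X ^ (p - 2) * M i + C (p : ℤ) * Q i) :
    KummerSetting (𝓞 K) p hζ.toInteger where
  toCycloSetting := cycloSetting hζ hp2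
  kummer := by
    have hlt : ∀ i : Fin n, (i : ℕ) + 1 < p := by
      intro i
      have := i.2
      have h2 := hp.out.two_le
      omega
    refine kummer_of_indep hζ hp2 (ι := Fin n) (by rw [rank_add_one hp2, Fintype.card_fin, hn])
      (fun i => (aeval_unitPoly_isUnit hζ i (hlt i)).unit) ?_
    exact indep_of_data hζ _ (fun i => unitPoly i)
      (fun i => ∑ d : Fin (p - 2), C (l i d) * X ^ (d : ℕ))
      (fun i => (IsUnit.unit_spec _).symm)
      (fun i => logRel_of_int _ _ (M i) (Q i) (hcert i))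
      (fun i => not_X_dvd_unitPoly i (hlt i))
      (hind_of_matrix l W hW _ (fun i => rfl))

end Main

end Fermat.Agent.FLTSmall
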