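import Mathlib

set_option autoImplicit false

namespace Fermat.Agent.FLTSmall.SG

open Finset

/-- The cofactor `(y ^ p + z ^ p) / (y + z)`. -/
def cof {R : Type*} [CommRing R] (p : ℕ) (y z : R) : R :=
  ∑ i ∈ range p, y ^ i * (-z) ^ (p - 1 - i)

theorem cof_mul {R : Type*} [CommRing R] {p : ℕ} (hp : Odd p) (y z : R) :
    cof p y z * (y + z) = y ^ p + z ^ p := by
  have h := geom_sum₂_mul y (-z) p
  rw [hp.neg_pow] at h
  unfold cof
  rw [show y + z = y - -z by ring, h]; ring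

theorem map_cof {R S : Type*} [CommRing R] [CommRing S] (f : R →+* S) (p : ℕ) (y z : R) :
    f (cof p y z) = cof p (f y) (f z) := by
  simp [cof, map_sum, map_mul, map_pow, map_neg]

theorem cof_of_add_eq_zero {R : Type*} [CommRing R] (p : ℕ) {y z : R} (h : y + z = 0) :
    cof p y z = p * y ^ (p - 1) := by
  have hz : -z = y := by linear_combination -h
  unfold cof
  rw [hz, geom_sum₂_self]

theorem cof_zero_left {R : Type*} [CommRing R] {p : ℕ} (hp : Odd p) (y : R) :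
    cof p 0 y = y ^ (p - 1) := by
  unfold cof
  obtain ⟨k, rfl⟩ := hp
  rw [Finset.sum_eq_single 0]
  · simp [Even.neg_pow (even_two_mul k)]
  · intro i _ hi
    simp [hi]
  · intro h
    simp at h

theorem isCoprime_add_cof {p : ℕ} (hp : p.Prime) {y z : ℤ} (hyz : IsCoprime y z)
    (hpyz : ¬ (p : ℤ) ∣ y + z) : IsCoprime (y + z) (cof p y z) := by
  apply isCoprime_of_prime_dvd
  · rintro ⟨h1, -⟩
    exact hpyz (h1 ▸ dvd_zero _)
  intro r hr h1 h2
  have h3 : r ∣ (p : ℤ) * y ^ (p - 1) := by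
    have := (dvd_geom_sum₂_iff_of_dvd_sub' (n := p) (x := y) (y := -z) (p := r)
      (by simpa using h1)).1 h2
    exact_mod_cast this
  rcases hr.dvd_or_dvd h3 with h4 | h4
  · -- `r ∣ p` so `r` is associated to `p`
    have hpp : Prime (p : ℤ) := Nat.prime_iff_prime_int.1 hp
    have : Associated r (p : ℤ) := hr.associated_of_dvd hpp h4
    exact hpyz (this.symm.dvd.trans h1)
  · have h5 : r ∣ y := hr.dvd_of_dvd_pow h4
    have h6 : r ∣ z := (dvd_add_right h5).1 h1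
    exact hr.not_isUnit (hyz.isUnit_of_dvd' h5 h6)

/-- Factorisation step. -/
theorem exists_pow_eq {p : ℕ} (hp : p.Prime) (hodd : Odd p) {x y z : ℤ}
    (h : x ^ p + y ^ p + z ^ p = 0) (hyz : IsCoprime y z) (hpx : ¬ (p : ℤ) ∣ x) :
    (∃ a : ℤ, y + z = a ^ p) ∧ ∃ α : ℤ, cof p y z = α ^ p := by
  have hpp : Prime (p : ℤ) := Nat.prime_iff_prime_int.1 hp
  have hprod : (y + z) * cof p y z = (-x) ^ p := by
    rw [mul_comm, cof_mul hodd, hodd.neg_pow]; linear_combination h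
  have hpyz : ¬ (p : ℤ) ∣ y + z := by
    intro hd
    have : (p : ℤ) ∣ (-x) ^ p := hprod ▸ hd.mul_right _
    exact hpx ((dvd_neg).1 (hpp.dvd_of_dvd_pow this))
  exact Int.eq_pow_of_mul_eq_pow_odd (isCoprime_add_cof hp hyz hpyz) hodd hprod

theorem core {p q : ℕ} (hp : p.Prime) (hodd : Odd p) [Fact q.Prime]
    (h1 : ∀ x y z : ZMod q, x ^ p + y ^ p + z ^ p = 0 → x = 0 ∨ y = 0 ∨ z = 0)
    (h2 : ∀ x : ZMod q, x ^ p ≠ (p : ZMod q))
    {x y z : ℤ} (h : x ^ p + y ^ p + z ^ p = 0)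
    (hxy : IsCoprime x y) (hyz : IsCoprime y z) (hzx : IsCoprime z x)
    (hpx : ¬ (p : ℤ) ∣ x) (hpy : ¬ (p : ℤ) ∣ y) (hpz : ¬ (p : ℤ) ∣ z)
    (hqx : (q : ℤ) ∣ x) : False := by
  have hq : q.Prime := Fact.out
  have hqq : Prime (q : ℤ) := Nat.prime_iff_prime_int.1 hq
  obtain ⟨⟨a, ha⟩, ⟨α, hα⟩⟩ := exists_pow_eq hp hodd h hyz hpx
  obtain ⟨⟨b, hb⟩, -⟩ := exists_pow_eq hp hodd (x := y) (y := z) (z := x)
    (by linear_combination h) hzx hpy
  obtain ⟨⟨c, hc⟩, ⟨γ, hγ⟩⟩ := exists_pow_eq hp hodd (x := z) (y := x) (z := y)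
    (by linear_combination h) hxy hpz
  have hx0 : (x : ZMod q) = 0 := (ZMod.intCast_zmod_eq_zero_iff_dvd x q).2 hqx
  have hy0 : (y : ZMod q) ≠ 0 := by
    intro h0
    have := (ZMod.intCast_zmod_eq_zero_iff_dvd y q).1 h0
    exact hqq.not_isUnit (hxy.isUnit_of_dvd' hqx this)
  have hz0 : (z : ZMod q) ≠ 0 := by
    intro h0
    have := (ZMod.intCast_zmod_eq_zero_iff_dvd z q).1 h0
    exact hqq.not_isUnit (hzx.isUnit_of_dvd' this hqx)
  have ha' : (y : ZMod q) + z = (a : ZMod q) ^ p := by exact_mod_cast congrArg (Int.cast : ℤ → ZMod q) ha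
  have hb' : (z : ZMod q) + x = (b : ZMod q) ^ p := by exact_mod_cast congrArg (Int.cast : ℤ → ZMod q) hb
  have hc' : (x : ZMod q) + y = (c : ZMod q) ^ p := by exact_mod_cast congrArg (Int.cast : ℤ → ZMod q) hc
  have hα' : cof p (y : ZMod q) (z : ZMod q) = (α : ZMod q) ^ p := by
    have := congrArg (Int.castRingHom (ZMod q)) hα
    rw [map_cof, map_pow] at this
    simpa using this
  have hγ' : cof p (x : ZMod q) (y : ZMod q) = (γ : ZMod q) ^ p := by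
    have := congrArg (Int.castRingHom (ZMod q)) hγ
    rw [map_cof, map_pow] at this
    simpa using this
  have hsum : (b : ZMod q) ^ p + (c : ZMod q) ^ p + (-(a : ZMod q)) ^ p = 0 := by
    rw [hodd.neg_pow, ← ha', ← hb', ← hc', hx0]; ring
  have hp0 : p ≠ 0 := hp.ne_zero
  rcases h1 _ _ _ hsum with hb0 | hc0 | ha0
  · rw [hb0, zero_pow hp0, hx0, add_zero] at hb'
    exact hz0 hb'
  · rw [hc0, zero_pow hp0, hx0, zero_add] at hc'
    exact hy0 hc'
  · have ha0' : (a : ZMod q) = 0 := neg_eq_zero.1 ha0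
    rw [ha0', zero_pow hp0] at ha'
    rw [cof_of_add_eq_zero p ha'] at hα'
    rw [hx0, cof_zero_left hodd] at hγ'
    have hγ0 : (γ : ZMod q) ≠ 0 := by
      intro h0
      rw [h0, zero_pow hp0] at hγ'
      exact hy0 (pow_eq_zero_iff (by have := hp.two_le; omega) |>.1 hγ')
    apply h2 ((α : ZMod q) / γ)
    rw [div_pow, ← hα', ← hγ']
    field_simp

/-- **Sophie Germain's theorem** (first case of Fermat's Last Theorem). -/
theorem sophieGermain {p q : ℕ} (hp : p.Prime) (hodd : Odd p) [Fact q.Prime]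
    (h1 : ∀ x y z : ZMod q, x ^ p + y ^ p + z ^ p = 0 → x = 0 ∨ y = 0 ∨ z = 0)
    (h2 : ∀ x : ZMod q, x ^ p ≠ (p : ZMod q))
    {a b c : ℤ} (hab : IsCoprime a b) (h : a ^ p + b ^ p = c ^ p) : (p : ℤ) ∣ a * b * c := by
  have hpp : Prime (p : ℤ) := Nat.prime_iff_prime_int.1 hp
  have hp0 : p ≠ 0 := hp.ne_zero
  by_contra hnd
  have hpa : ¬ (p : ℤ) ∣ a := fun hd => hnd ((hd.mul_right b).mul_right c)
  have hpb : ¬ (p : ℤ) ∣ b := fun hd => hnd ((hd.mul_left a).mul_right c)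
  have hpc : ¬ (p : ℤ) ∣ c := fun hd => hnd (hd.mul_left (a * b))
  have hpc' : ¬ (p : ℤ) ∣ -c := fun hd => hpc ((dvd_neg).1 hd)
  have h0 : a ^ p + b ^ p + (-c) ^ p = 0 := by rw [hodd.neg_pow, h]; ring
  -- pairwise coprimality
  have hbc : IsCoprime b (-c) := by
    apply isCoprime_of_prime_dvd
    · rintro ⟨hb0, -⟩
      exact hpb (hb0 ▸ dvd_zero _)
    intro r hr hrb hrc
    have hrc' : r ∣ c := (dvd_neg).1 hrc
    have : r ∣ a ^ p := by
      have h3 : a ^ p = c ^ p - b ^ p := by linear_combination h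
      rw [h3]
      exact dvd_sub (dvd_pow hrc' hp0) (dvd_pow hrb hp0)
    exact hr.not_isUnit (hab.isUnit_of_dvd' (hr.dvd_of_dvd_pow this) hrb)
  have hca : IsCoprime (-c) a := by
    apply isCoprime_of_prime_dvd
    · rintro ⟨-, ha0⟩
      exact hpa (ha0 ▸ dvd_zero _)
    intro r hr hrc hra
    have hrc' : r ∣ c := (dvd_neg).1 hrc
    have : r ∣ b ^ p := by
      have h3 : b ^ p = c ^ p - a ^ p := by linear_combination h
      rw [h3]
      exact dvd_sub (dvd_pow hrc' hp0) (dvd_pow hra hp0)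
    exact hr.not_isUnit (hab.isUnit_of_dvd' hra (hr.dvd_of_dvd_pow this))
  have hq0 : ((a : ZMod q)) ^ p + (b : ZMod q) ^ p + ((-c : ℤ) : ZMod q) ^ p = 0 := by
    exact_mod_cast congrArg (Int.cast : ℤ → ZMod q) h0
  rcases h1 _ _ _ hq0 with ha0 | hb0 | hc0
  · exact core hp hodd h1 h2 h0 hab hbc hca hpa hpb hpc'
      ((ZMod.intCast_zmod_eq_zero_iff_dvd a q).1 ha0)
  · exact core hp hodd h1 h2 (x := b) (y := -c) (z := a) (by linear_combination h0) hbc hca hab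
      hpb hpc' hpa ((ZMod.intCast_zmod_eq_zero_iff_dvd b q).1 hb0)
  · exact core hp hodd h1 h2 (x := -c) (y := a) (z := b) (by linear_combination h0) hca hab hbc
      hpc' hpa hpb ((ZMod.intCast_zmod_eq_zero_iff_dvd (-c) q).1 hc0)

theorem h1_of {p q : ℕ} [Fact q.Prime] (hp0 : p ≠ 0) (T : Finset (ZMod q))
    (hT : ∀ x : ZMod q, x ^ p ∈ T)
    (hsum : ∀ u ∈ T, ∀ v ∈ T, ∀ w ∈ T, u + v + w = 0 → u = 0 ∨ v = 0 ∨ w = 0) :
    ∀ x y z : ZMod q, x ^ p + y ^ p + z ^ p = 0 → x = 0 ∨ y = 0 ∨ z = 0 := by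
  intro x y z h
  rcases hsum _ (hT x) _ (hT y) _ (hT z) h with h | h | h
  · exact Or.inl ((pow_eq_zero_iff hp0).1 h)
  · exact Or.inr (Or.inl ((pow_eq_zero_iff hp0).1 h))
  · exact Or.inr (Or.inr ((pow_eq_zero_iff hp0).1 h))

theorem pow_mem_five : ∀ x : ZMod 11, x ^ 5 ∈ ({0, 1, 10} : Finset (ZMod 11)) := by decide

theorem sum_five : ∀ u ∈ ({0, 1, 10} : Finset (ZMod 11)), ∀ v ∈ ({0, 1, 10} : Finset (ZMod 11)),
    ∀ w ∈ ({0, 1, 10} : Finset (ZMod 11)), u + v + w = 0 → u = 0 ∨ v = 0 ∨ w = 0 := by decide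

theorem ne_five : ∀ x : ZMod 11, x ^ 5 ≠ ((5 : ℕ) : ZMod 11) := by decide

theorem caseI_five {a b c : ℤ} (hab : IsCoprime a b) (h : a ^ 5 + b ^ 5 = c ^ 5) :
    ((5 : ℕ) : ℤ) ∣ a * b * c := by
  have : Fact (Nat.Prime 11) := ⟨by norm_num⟩
  exact sophieGermain (p := 5) (q := 11) (by norm_num) (by decide)
    (h1_of (by norm_num) _ pow_mem_five sum_five) ne_five hab h

theorem pow_mem_seven : ∀ x : ZMod 29, x ^ 7 ∈ ({0, 1, 12, 17, 28} : Finset (ZMod 29)) := by decide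

theorem sum_seven : ∀ u ∈ ({0, 1, 12, 17, 28} : Finset (ZMod 29)), ∀ v ∈ ({0, 1, 12, 17, 28} : Finset (ZMod 29)),
    ∀ w ∈ ({0, 1, 12, 17, 28} : Finset (ZMod 29)), u + v + w = 0 → u = 0 ∨ v = 0 ∨ w = 0 := by decide

theorem ne_seven : ∀ x : ZMod 29, x ^ 7 ≠ ((7 : ℕ) : ZMod 29) := by decide

theorem caseI_seven {a b c : ℤ} (hab : IsCoprime a b) (h : a ^ 7 + b ^ 7 = c ^ 7) :
    ((7 : ℕ) : ℤ) ∣ a * b * c := by
  have : Fact (Nat.Prime 29) := ⟨by norm_num⟩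
  exact sophieGermain (p := 7) (q := 29) (by norm_num) (by decide)
    (h1_of (by norm_num) _ pow_mem_seven sum_seven) ne_seven hab h

theorem pow_mem_eleven : ∀ x : ZMod 23, x ^ 11 ∈ ({0, 1, 22} : Finset (ZMod 23)) := by decide

theorem sum_eleven : ∀ u ∈ ({0, 1, 22} : Finset (ZMod 23)), ∀ v ∈ ({0, 1, 22} : Finset (ZMod 23)),
    ∀ w ∈ ({0, 1, 22} : Finset (ZMod 23)), u + v + w = 0 → u = 0 ∨ v = 0 ∨ w = 0 := by decide

theorem ne_eleven : ∀ x : ZMod 23, x ^ 11 ≠ ((11 : ℕ) : ZMod 23) := by decide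

theorem caseI_eleven {a b c : ℤ} (hab : IsCoprime a b) (h : a ^ 11 + b ^ 11 = c ^ 11) :
    ((11 : ℕ) : ℤ) ∣ a * b * c := by
  have : Fact (Nat.Prime 23) := ⟨by norm_num⟩
  exact sophieGermain (p := 11) (q := 23) (by norm_num) (by decide)
    (h1_of (by norm_num) _ pow_mem_eleven sum_eleven) ne_eleven hab h

set_option maxRecDepth 4000 in
theorem pow_mem_thirteen : ∀ x : ZMod 53, x ^ 13 ∈ ({0, 1, 23, 30, 52} : Finset (ZMod 53)) := by decide

set_option maxRecDepth 10000 in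
theorem sum_thirteen : ∀ u ∈ ({0, 1, 23, 30, 52} : Finset (ZMod 53)), ∀ v ∈ ({0, 1, 23, 30, 52} : Finset (ZMod 53)),
    ∀ w ∈ ({0, 1, 23, 30, 52} : Finset (ZMod 53)), u + v + w = 0 → u = 0 ∨ v = 0 ∨ w = 0 := by decide

set_option maxRecDepth 4000 in
theorem ne_thirteen : ∀ x : ZMod 53, x ^ 13 ≠ ((13 : ℕ) : ZMod 53) := by decide

theorem caseI_thirteen {a b c : ℤ} (hab : IsCoprime a b) (h : a ^ 13 + b ^ 13 = c ^ 13) :
    ((13 : ℕ) : ℤ) ∣ a * b * c := by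
  have : Fact (Nat.Prime 53) := ⟨by norm_num⟩
  exact sophieGermain (p := 13) (q := 53) (by norm_num) (by decide)
    (h1_of (by norm_num) _ pow_mem_thirteen sum_thirteen) ne_thirteen hab h

end Fermat.Agent.FLTSmall.SG
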