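import Mathlib
import Fermat.Agent.FLTSmall.Kummer

set_option autoImplicit false

namespace Fermat.Agent.FLTSmall

open Polynomial NumberField

/-- log-derivative coefficients of the cyclotomic units mod 11 -/
def lMat11 : Matrix (Fin 5) (Fin 9) ℤ :=
  ![![1, -1, 1, -1, 1, -1, 1, -1, 1],
    ![-5, -3, -4, 2, -1, -5, -3, -4, 2],
    ![1, -4, 0, 5, -5, -4, 2, 3, 0],
    ![-4, -3, 1, -3, -4, -5, 4, 0, 0],
    ![2, 0, -1, 3, 0, -5, 5, -5, 5]]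

def wMat11 : Matrix (Fin 9) (Fin 5) (ZMod 11) :=
  ![![9, 6, 7, 0, 2],
    ![1, 8, 7, 4, 2],
    ![0, 0, 0, 0, 0],
    ![9, 0, 1, 3, 1],
    ![0, 0, 0, 0, 0],
    ![0, 8, 5, 0, 1],
    ![0, 0, 0, 0, 0],
    ![9, 1, 5, 4, 9],
    ![0, 0, 0, 0, 0]]

lemma lMat11_mul_wMat11 : (lMat11.map (Int.cast : ℤ → ZMod 11)) * wMat11 = 1 := by
  decide

noncomputable def mPoly11 : Fin 5 → ℤ[X] :=
  ![(-1),
    (-2),
    (-3),
    (-4),
    (-20) + (-30) * X + (-20) * X ^ 2 + (-5) * X ^ 3]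

noncomputable def qPoly11 : Fin 5 → ℤ[X] :=
  ![0,
    1 + 1 * X + 1 * X ^ 2 + 1 * X ^ 5 + 1 * X ^ 6 + 1 * X ^ 7,
    1 * X + 1 * X ^ 2 + (-1) * X ^ 3 + 2 * X ^ 5 + 1 * X ^ 6 + (-1) * X ^ 7 + (-1) * X ^ 8,
    2 + 4 * X + 3 * X ^ 2 + 2 * X ^ 3 + 3 * X ^ 4 + 5 * X ^ 5 + 3 * X ^ 6 + (-1) * X ^ 8,
    (-1) * X ^ 3 + (-2) * X ^ 4 + 1 * X ^ 6 + 2 * X ^ 7]

lemma cert11 (i : Fin 5) : derivative (unitPoly i) - unitPoly i *
    (∑ d : Fin 9, C (lMat11 i d) * X ^ (d : ℕ)) = X ^ 9 * mPoly11 i + C (11 : ℤ) * qPoly11 i := by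
  fin_cases i <;>
  simp [unitPoly, lMat11, mPoly11, qPoly11, Finset.sum_range_succ, Fin.sum_univ_succ, derivative_pow] <;>
  ring

theorem kummerSetting_eleven {K : Type*} [Field K] [NumberField K] [IsCyclotomicExtension {11} ℚ K]
    {ζ : K} (hζ : IsPrimitiveRoot ζ 11) : KummerSetting (𝓞 K) 11 hζ.toInteger := by
  have : Fact (Nat.Prime 11) := ⟨by norm_num⟩
  exact kummerSetting_of_cert hζ (by norm_num) 5 (by norm_num) lMat11 wMat11 lMat11_mul_wMat11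
    mPoly11 qPoly11 cert11

end Fermat.Agent.FLTSmall
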