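import Mathlib
import Fermat.Agent.FLTSmall.Kummer

set_option autoImplicit false

namespace Fermat.Agent.FLTSmall

open Polynomial NumberField

/-- log-derivative coefficients of the cyclotomic units mod 13 -/
def lMat13 : Matrix (Fin 6) (Fin 11) ℤ :=
  ![![1, -1, 1, -1, 1, -1, 1, -1, 1, -1, 1],
    ![-6, 3, 5, 4, -2, 1, 6, -3, -5, -4, 2],
    ![1, 4, 0, 3, -3, 2, -1, -4, 0, -3, 3],
    ![-5, 3, -2, -2, 1, 1, -2, 5, 4, -4, 4],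
    ![2, 0, -1, 6, 0, 2, -2, 4, -6, 3, 5],
    ![-4, -5, 3, -5, -4, 1, 6, -6, 6, -6, 6]]

def wMat13 : Matrix (Fin 11) (Fin 6) (ZMod 13) :=
  ![![1, 10, 12, 7, 4, 4],
    ![3, 2, 12, 11, 2, 1],
    ![0, 0, 0, 0, 0, 0],
    ![3, 10, 2, 9, 2, 2],
    ![0, 0, 0, 0, 0, 0],
    ![9, 7, 4, 9, 7, 11],
    ![0, 0, 0, 0, 0, 0],
    ![7, 11, 0, 6, 1, 1],
    ![0, 0, 0, 0, 0, 0],
    ![4, 6, 7, 11, 5, 2],
    ![0, 0, 0, 0, 0, 0]]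

lemma lMat13_mul_wMat13 : (lMat13.map (Int.cast : ℤ → ZMod 13)) * wMat13 = 1 := by
  decide

noncomputable def mPoly13 : Fin 6 → ℤ[X] :=
  ![(-1),
    (-2),
    (-6) + (-3) * X,
    (-12) + (-12) * X + (-4) * X ^ 2,
    (-54) + (-59) * X + (-28) * X ^ 2 + (-5) * X ^ 3,
    (-30) + (-60) * X + (-60) * X ^ 2 + (-30) * X ^ 3 + (-6) * X ^ 4]

noncomputable def qPoly13 : Fin 6 → ℤ[X] :=
  ![0,
    1 + (-1) * X ^ 2 + (-1) * X ^ 3 + (-1) * X ^ 6 + 1 * X ^ 8 + 1 * X ^ 9,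
    (-1) * X + (-1) * X ^ 2 + (-1) * X ^ 3 + 1 * X ^ 7 + 1 * X ^ 8 + 1 * X ^ 9,
    2 + 2 * X + 1 * X ^ 2 + 1 * X ^ 3 + 1 * X ^ 4 + (-1) * X ^ 7 + (-3) * X ^ 8 + (-2) * X ^ 9 + (-1) * X ^ 10,
    (-2) * X ^ 3 + (-4) * X ^ 4 + (-5) * X ^ 5 + (-3) * X ^ 6 + (-2) * X ^ 7 + 1 * X ^ 9 + (-1) * X ^ 10,
    3 + 10 * X + 14 * X ^ 2 + 13 * X ^ 3 + 11 * X ^ 4 + 11 * X ^ 5 + 7 * X ^ 6 + 1 * X ^ 7 + (-4) * X ^ 8 + (-2) * X ^ 9 + (-1) * X ^ 10]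

lemma cert13 (i : Fin 6) : derivative (unitPoly i) - unitPoly i *
    (∑ d : Fin 11, C (lMat13 i d) * X ^ (d : ℕ)) = X ^ 11 * mPoly13 i + C (13 : ℤ) * qPoly13 i := by
  fin_cases i <;>
  simp [unitPoly, lMat13, mPoly13, qPoly13, Finset.sum_range_succ, Fin.sum_univ_succ, derivative_pow] <;>
  ring

theorem kummerSetting_thirteen {K : Type*} [Field K] [NumberField K] [IsCyclotomicExtension {13} ℚ K]
    {ζ : K} (hζ : IsPrimitiveRoot ζ 13) : KummerSetting (𝓞 K) 13 hζ.toInteger := by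
  have : Fact (Nat.Prime 13) := ⟨by norm_num⟩
  exact kummerSetting_of_cert hζ (by norm_num) 6 (by norm_num) lMat13 wMat13 lMat13_mul_wMat13
    mPoly13 qPoly13 cert13

end Fermat.Agent.FLTSmall
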