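import Mathlib
import Fermat.Agent.FLTSmall.Kummer

set_option autoImplicit false

namespace Fermat.Agent.FLTSmall

open Polynomial NumberField

/-- log-derivative coefficients of the cyclotomic units mod 5 -/
def lMat5 : Matrix (Fin 2) (Fin 3) ℤ :=
  ![![1, -1, 1],
    ![-2, 1, 2]]

def wMat5 : Matrix (Fin 3) (Fin 2) (ZMod 5) :=
  ![![4, 4],
    ![3, 4],
    ![0, 0]]

lemma lMat5_mul_wMat5 : (lMat5.map (Int.cast : ℤ → ZMod 5)) * wMat5 = 1 := by
  decide

noncomputable def mPoly5 : Fin 2 → ℤ[X] :=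
  ![(-1),
    (-2)]

noncomputable def qPoly5 : Fin 2 → ℤ[X] :=
  ![0,
    1 + (-1) * X ^ 2]

lemma cert5 (i : Fin 2) : derivative (unitPoly i) - unitPoly i *
    (∑ d : Fin 3, C (lMat5 i d) * X ^ (d : ℕ)) = X ^ 3 * mPoly5 i + C (5 : ℤ) * qPoly5 i := by
  fin_cases i <;>
  simp [unitPoly, lMat5, mPoly5, qPoly5, Finset.sum_range_succ, Fin.sum_univ_succ, derivative_pow] <;>
  ring

theorem kummerSetting_five {K : Type*} [Field K] [NumberField K] [IsCyclotomicExtension {5} ℚ K]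
    {ζ : K} (hζ : IsPrimitiveRoot ζ 5) : KummerSetting (𝓞 K) 5 hζ.toInteger := by
  have : Fact (Nat.Prime 5) := ⟨by norm_num⟩
  exact kummerSetting_of_cert hζ (by norm_num) 2 (by norm_num) lMat5 wMat5 lMat5_mul_wMat5
    mPoly5 qPoly5 cert5

end Fermat.Agent.FLTSmall
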