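import Mathlib
import Fermat.Agent.FLTSmall.Kummer

set_option autoImplicit false

namespace Fermat.Agent.FLTSmall

open Polynomial NumberField

/-- log-derivative coefficients of the cyclotomic units mod 7 -/
def lMat7 : Matrix (Fin 3) (Fin 5) ℤ :=
  ![![1, -1, 1, -1, 1],
    ![-3, -2, 1, 3, 2],
    ![1, 2, 0, -3, 3]]

def wMat7 : Matrix (Fin 5) (Fin 3) (ZMod 7) :=
  ![![0, 3, 3],
    ![5, 4, 0],
    ![0, 0, 0],
    ![1, 6, 3],
    ![0, 0, 0]]

lemma lMat7_mul_wMat7 : (lMat7.map (Int.cast : ℤ → ZMod 7)) * wMat7 = 1 := by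
  decide

noncomputable def mPoly7 : Fin 3 → ℤ[X] :=
  ![(-1),
    (-2),
    (-6) + (-3) * X]

noncomputable def qPoly7 : Fin 3 → ℤ[X] :=
  ![0,
    1 + 1 * X + (-1) * X ^ 3 + (-1) * X ^ 4,
    (-1) * X + (-1) * X ^ 2 + 1 * X ^ 3]

lemma cert7 (i : Fin 3) : derivative (unitPoly i) - unitPoly i *
    (∑ d : Fin 5, C (lMat7 i d) * X ^ (d : ℕ)) = X ^ 5 * mPoly7 i + C (7 : ℤ) * qPoly7 i := by
  fin_cases i <;>
  simp [unitPoly, lMat7, mPoly7, qPoly7, Finset.sum_range_succ, Fin.sum_univ_succ, derivative_pow] <;>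
  ring

theorem kummerSetting_seven {K : Type*} [Field K] [NumberField K] [IsCyclotomicExtension {7} ℚ K]
    {ζ : K} (hζ : IsPrimitiveRoot ζ 7) : KummerSetting (𝓞 K) 7 hζ.toInteger := by
  have : Fact (Nat.Prime 7) := ⟨by norm_num⟩
  exact kummerSetting_of_cert hζ (by norm_num) 3 (by norm_num) lMat7 wMat7 lMat7_mul_wMat7
    mPoly7 qPoly7 cert7

end Fermat.Agent.FLTSmall
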