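import Mathlib
import Fermat.Agent.FLTSmall.Units5
import Fermat.Agent.FLTSmall.Units7
import Fermat.Agent.FLTSmall.Units11
import Fermat.Agent.FLTSmall.Units13
import Fermat.Agent.FLTSmall.PID
import Fermat.Agent.FLTSmall.SG

/-!
Fermat's Last Theorem for the exponents 5, 7, 11, 13 (coprime form).
-/

set_option autoImplicit false

namespace Fermat.Agent.FLTSmall

open NumberField

set_option backward.isDefEq.respectTransparency false in
theorem flt_five {a b c : ℤ} (hab : IsCoprime a b) (ha : a ≠ 0) (hb : b ≠ 0) (hc : c ≠ 0)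
    (h : a ^ 5 + b ^ 5 = c ^ 5) : False := by
  have hζ := IsCyclotomicExtension.zeta_spec 5 ℚ (CyclotomicField 5 ℚ)
  have := IsCyclotomicExtension.Rat.five_pid (CyclotomicField 5 ℚ)
  exact (kummerSetting_five hζ).no_coprime_solution
    (fun _ _ _ h1 h2 => SG.caseI_five h1 h2) hab ha hb hc h

set_option backward.isDefEq.respectTransparency false in
theorem flt_seven {a b c : ℤ} (hab : IsCoprime a b) (ha : a ≠ 0) (hb : b ≠ 0) (hc : c ≠ 0)
    (h : a ^ 7 + b ^ 7 = c ^ 7) : False := by
  have hζ := IsCyclotomicExtension.zeta_spec 7 ℚ (CyclotomicField 7 ℚ)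
  have := PID.seven_pid (CyclotomicField 7 ℚ)
  exact (kummerSetting_seven hζ).no_coprime_solution
    (fun _ _ _ h1 h2 => SG.caseI_seven h1 h2) hab ha hb hc h

set_option backward.isDefEq.respectTransparency false in
theorem flt_eleven {a b c : ℤ} (hab : IsCoprime a b) (ha : a ≠ 0) (hb : b ≠ 0) (hc : c ≠ 0)
    (h : a ^ 11 + b ^ 11 = c ^ 11) : False := by
  have hζ := IsCyclotomicExtension.zeta_spec 11 ℚ (CyclotomicField 11 ℚ)
  have := PID.eleven_pid (CyclotomicField 11 ℚ)
  exact (kummerSetting_eleven hζ).no_coprime_solution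
    (fun _ _ _ h1 h2 => SG.caseI_eleven h1 h2) hab ha hb hc h

set_option backward.isDefEq.respectTransparency false in
theorem flt_thirteen {a b c : ℤ} (hab : IsCoprime a b) (ha : a ≠ 0) (hb : b ≠ 0) (hc : c ≠ 0)
    (h : a ^ 13 + b ^ 13 = c ^ 13) : False := by
  have hζ := IsCyclotomicExtension.zeta_spec 13 ℚ (CyclotomicField 13 ℚ)
  have := PID.thirteen_pid (CyclotomicField 13 ℚ)
  exact (kummerSetting_thirteen hζ).no_coprime_solution
    (fun _ _ _ h1 h2 => SG.caseI_thirteen h1 h2) hab ha hb hc h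

end Fermat.Agent.FLTSmall
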